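/-
S52 programme K, brick B5 (mod-3 irreducibility), leaf L1a (helper1): arithmetic core.

If the `j`-invariant `c₄³/Δ` of an integral curve is of the form `(s+27)(s+3)³/s` with `s ∈ ℚ`
(the `X₀(3)`-parametrisation: this is what a rational 3-isogeny gives, see
`Fermat.Agent.S51.j_param_three`) and `q` is a prime with `q ∣ c₆`, `q ∤ c₄`, `q ≠ 2, 3`,
then `3` is a square modulo `q`.

Reason: `(s+27)(s+3)³ - 1728 s = (s² + 18 s - 27)²`, so `c₄³ (s²+18s-27)² = c₆² (s+27)(s+3)³`;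
writing `s = m/n` in lowest terms, `q ∣ m² + 18mn - 27n² = (m+9n)² - 3 (6n)²` and `q ∤ n`.
-/
import Mathlib

set_option autoImplicit false

namespace Fermat.Agent.S52K5L.Psi3Arith

/-- The `X₀(3)`-parameter of a curve whose `c₆` vanishes mod `q` (and `c₄` does not) forces `3` to be
a square mod `q`. -/
theorem three_isSquare_of_param {c4 c6 Δ : ℤ} (hΔ : 1728 * Δ = c4 ^ 3 - c6 ^ 2) {q : ℕ}
    (hq : q.Prime) (hc6 : (q : ℤ) ∣ c6) (hc4 : ¬ (q : ℤ) ∣ c4) (hq2 : q ≠ 2) (hq3 : q ≠ 3)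
    {s : ℚ} (hs : (c4 : ℚ) ^ 3 * s = Δ * ((s + 27) * (s + 3) ^ 3)) :
    IsSquare (3 : ZMod q) := by
  have : Fact q.Prime := ⟨hq⟩
  have hΔ' : (1728 : ℚ) * Δ = (c4 : ℚ) ^ 3 - (c6 : ℚ) ^ 2 := by exact_mod_cast hΔ
  have key : (c4 : ℚ) ^ 3 * (s ^ 2 + 18 * s - 27) ^ 2 =
      (c6 : ℚ) ^ 2 * ((s + 27) * (s + 3) ^ 3) := by
    linear_combination (-1728 : ℚ) * hs - ((s + 27) * (s + 3) ^ 3) * hΔ'
  obtain ⟨m, hm⟩ : ∃ m : ℤ, m = s.num := ⟨_, rfl⟩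
  obtain ⟨n, hn⟩ : ∃ n : ℤ, n = (s.den : ℤ) := ⟨_, rfl⟩
  have hms : (m : ℚ) = s * n := by
    rw [hm, hn]; push_cast; exact (Rat.mul_den_eq_num s).symm
  have hcop : IsCoprime m n := by
    rw [Int.isCoprime_iff_gcd_eq_one, hm, hn]
    have := s.reduced
    simpa [Int.gcd, Nat.Coprime] using this
  have hZ : c4 ^ 3 * (m ^ 2 + 18 * m * n - 27 * n ^ 2) ^ 2 =
      c6 ^ 2 * ((m + 27 * n) * (m + 3 * n) ^ 3) := by
    have h : ((c4 ^ 3 * (m ^ 2 + 18 * m * n - 27 * n ^ 2) ^ 2 : ℤ) : ℚ) =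
        ((c6 ^ 2 * ((m + 27 * n) * (m + 3 * n) ^ 3) : ℤ) : ℚ) := by
      push_cast
      rw [hms]
      linear_combination (n : ℚ) ^ 4 * key
    exact_mod_cast h
  have hqZ : Prime (q : ℤ) := Nat.prime_iff_prime_int.mp hq
  have hX : (q : ℤ) ∣ m ^ 2 + 18 * m * n - 27 * n ^ 2 := by
    have h1 : (q : ℤ) ∣ c4 ^ 3 * (m ^ 2 + 18 * m * n - 27 * n ^ 2) ^ 2 := by
      rw [hZ]; exact Dvd.dvd.mul_right (dvd_pow hc6 two_ne_zero) _
    rcases hqZ.dvd_or_dvd h1 with h2 | h2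
    · exact absurd (hqZ.dvd_of_dvd_pow h2) hc4
    · exact hqZ.dvd_of_dvd_pow h2
  have hXq : ((m : ZMod q) + 9 * n) ^ 2 = 3 * (6 * (n : ZMod q)) ^ 2 := by
    have h := (ZMod.intCast_zmod_eq_zero_iff_dvd _ q).mpr hX
    push_cast at h
    linear_combination h
  have hnq : (n : ZMod q) ≠ 0 := by
    intro h0
    have hm0 : (m : ZMod q) = 0 := by
      have h2 : (m : ZMod q) ^ 2 = 0 := by
        rw [h0] at hXq
        linear_combination hXq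
      exact pow_eq_zero_iff two_ne_zero |>.mp h2
    have h1 : (q : ℤ) ∣ n := (ZMod.intCast_zmod_eq_zero_iff_dvd n q).mp h0
    have h2 : (q : ℤ) ∣ m := (ZMod.intCast_zmod_eq_zero_iff_dvd m q).mp hm0
    exact hqZ.not_isUnit (hcop.isUnit_of_dvd' h2 h1)
  have h6 : (6 : ZMod q) ≠ 0 := by
    intro h0
    have h1 : ((6 : ℕ) : ZMod q) = 0 := by exact_mod_cast h0
    rw [ZMod.natCast_eq_zero_iff] at h1
    have h2 : q ∣ 2 * 3 := by simpa using h1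
    rcases (Nat.Prime.dvd_mul hq).mp h2 with h3 | h3
    · exact hq2 ((Nat.prime_dvd_prime_iff_eq hq Nat.prime_two).mp h3)
    · exact hq3 ((Nat.prime_dvd_prime_iff_eq hq Nat.prime_three).mp h3)
  have h6n : (6 * (n : ZMod q)) ≠ 0 := mul_ne_zero h6 hnq
  refine ⟨((m : ZMod q) + 9 * n) / (6 * (n : ZMod q)), ?_⟩
  rw [← pow_two, div_pow, hXq, mul_div_assoc, div_self (pow_ne_zero 2 h6n), mul_one]

end Fermat.Agent.S52K5L.Psi3Arith
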