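/-
S52 programme K, brick B5 (mod-3 irreducibility), leaf L1 (helper1).

`modRepIsIrreducible_three_of_prime`: an integral Weierstrass curve `W` (`Δ ≠ 0`) with a prime `q`
such that `q ∣ c₆(W)`, `q ∤ c₄(W)` and `3` is NOT a square mod `q` has an irreducible mod-3
representation.  (The reduction mod `q` is `y² = x³ + a x`, whose 3-division polynomial has no root
in `F_q`; in the `X₀(3)`-parametrisation `j - 1728 = (s² + 18 s - 27)²/s`, of discriminant `3·12²`.)

Inputs: `S51.Galois.rational_root_of_not_irreducible_three` (reducible ⟹ rational root of `ψ₃`),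
`S51.j_param_three` (root ⟹ `X₀(3)`-parameter), `Psi3Arith.three_isSquare_of_param`.
-/
import Mathlib
import Fermat.Prelude.Def_FLTPrelim_ModularRep
import Fermat.Agent.S51.GaloisDescent
import Fermat.Agent.S52K5L.Psi3Arith

set_option autoImplicit false

open WeierstrassCurve

namespace Fermat.Agent.S52K5L.Psi3NoRoot

open Fermat.Agent.S51 Fermat.Agent.S52K5L.Psi3Arith

/-- If `3` is not a square mod `q` then `q ≠ 2`. -/
theorem ne_two_of_not_isSquare_three {q : ℕ} (h3 : ¬ IsSquare (3 : ZMod q)) : q ≠ 2 := by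
  rintro rfl
  exact h3 ⟨1, by decide⟩

/-- If `3` is not a square mod `q` then `q ≠ 3`. -/
theorem ne_three_of_not_isSquare_three {q : ℕ} (h3 : ¬ IsSquare (3 : ZMod q)) : q ≠ 3 := by
  rintro rfl
  exact h3 ⟨0, by decide⟩

/-- **(L1)** `q ∣ c₆`, `q ∤ c₄`, `3` a non-square mod `q` ⟹ the mod-3 representation is
irreducible. -/
theorem modRepIsIrreducible_three_of_prime (W : WeierstrassCurve ℤ) (hΔ : W.Δ ≠ 0) {q : ℕ}
    (hq : q.Prime) (hc6 : (q : ℤ) ∣ W.c₆) (hc4 : ¬ (q : ℤ) ∣ W.c₄)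
    (h3 : ¬ IsSquare (3 : ZMod q)) : W.ModRepIsIrreducible 3 := by
  by_contra hred
  unfold WeierstrassCurve.ModRepIsIrreducible at hred
  have hΔq : (W.map (Int.castRingHom ℚ)).Δ = (W.Δ : ℚ) := by
    rw [WeierstrassCurve.map_Δ]; rfl
  have hc₄q : (W.map (Int.castRingHom ℚ)).c₄ = (W.c₄ : ℚ) := by
    rw [WeierstrassCurve.map_c₄]; rfl
  have hΔne : (W.map (Int.castRingHom ℚ)).Δ ≠ 0 := by
    rw [hΔq]; exact_mod_cast hΔ
  obtain ⟨x, hx1, hx2⟩ :=
    Galois.rational_root_of_not_irreducible_three (W.map (Int.castRingHom ℚ)) hΔne hred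
  obtain ⟨s, hs, -⟩ := j_param_three (W := W.map (Int.castRingHom ℚ)) hx1 hx2
  rw [hΔq, hc₄q] at hs
  exact h3 (three_isSquare_of_param W.c_relation hq hc6 hc4
    (ne_two_of_not_isSquare_three h3) (ne_three_of_not_isSquare_three h3) hs)

end Fermat.Agent.S52K5L.Psi3NoRoot
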