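/-
S52 programme K, brick B5, leaf L6a (helper1): for a semistable integral Weierstrass model `W`
(`Δ ≠ 0`) and a valuation subring `A` of `ℚ̄` over a prime `q ≠ 5`, the inertia group of `A` fixes a
nonzero point of `W(ℚ̄)[5]`.

* good reduction at `q`: inertia fixes all of `W[5]` (`InertiaMult.map_eq_self_of_good`), and
  `W[5] ≠ 0` (`DivPoly.CardEq29.card_torsionBy_eq`);
* multiplicative reduction: `InertiaMult.exists_inertia_fixed_mult` gives `≥ 5` fixed points
  killed by `5`.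

Together with `S52K5L.Unipotent` (a matrix of determinant `1` over `F₅` fixing a nonzero vector has
order dividing `5`) this is what brick B5 needs to produce `σ₀`.
-/
import Mathlib
import Fermat.Agent.InertiaMult.Good
import Fermat.Agent.DivPoly.CardEq29

set_option autoImplicit false

open WeierstrassCurve WeierstrassCurve.Affine WeierstrassCurve.Affine.Point

namespace Fermat.Agent.S52K5L.InertFix

local notation "Qb" => AlgebraicClosure ℚ
local notation "GQ" => (AlgebraicClosure ℚ ≃ₐ[ℚ] AlgebraicClosure ℚ)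

/-- The discriminant of the base change to `ℚ̄` is nonzero. -/
theorem Δ_baseChange_ne_zero (W : WeierstrassCurve ℤ) (hΔ : W.Δ ≠ 0) :
    ((W.map (Int.castRingHom ℚ))⁄Qb).Δ ≠ 0 := by
  have h1 : ((W.map (Int.castRingHom ℚ))⁄Qb).Δ =
      algebraMap ℚ Qb ((W.map (Int.castRingHom ℚ)).Δ) := by
    show ((W.map (Int.castRingHom ℚ)).map (algebraMap ℚ Qb)).Δ = _
    rw [WeierstrassCurve.map_Δ]
  rw [h1, WeierstrassCurve.map_Δ]
  intro h0
  have h2 := (map_eq_zero_iff _ (algebraMap ℚ Qb).injective).mp h0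
  rw [eq_intCast] at h2
  exact hΔ (by exact_mod_cast h2)

/-- `W(ℚ̄)[5]` contains a nonzero point. -/
theorem exists_five_torsion_ne_zero (W : WeierstrassCurve ℤ) (hΔ : W.Δ ≠ 0) :
    ∃ P : ((W.map (Int.castRingHom ℚ))⁄Qb).Point, P ≠ 0 ∧ 5 • P = 0 := by
  have hcard := Fermat.Agent.DivPoly.CardEq29.card_torsionBy_eq
    (W := ((W.map (Int.castRingHom ℚ))⁄Qb)) (Δ_baseChange_ne_zero W hΔ) (n := 5) (by decide)
  have hfin : Finite (Submodule.torsionBy ℤ ((W.map (Int.castRingHom ℚ))⁄Qb).Point ((5 : ℕ) : ℤ)) :=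
    Nat.finite_of_card_ne_zero (by rw [hcard]; norm_num)
  have hnt : Nontrivial
      (Submodule.torsionBy ℤ ((W.map (Int.castRingHom ℚ))⁄Qb).Point ((5 : ℕ) : ℤ)) := by
    rw [← Finite.one_lt_card_iff_nontrivial, hcard]; norm_num
  obtain ⟨x, hx⟩ := exists_ne (0 : Submodule.torsionBy ℤ
    ((W.map (Int.castRingHom ℚ))⁄Qb).Point ((5 : ℕ) : ℤ))
  refine ⟨x.1, fun h => hx (Subtype.ext h), ?_⟩
  have h5 := x.2
  rw [Submodule.mem_torsionBy_iff] at h5
  rw [← h5, Nat.cast_smul_eq_nsmul]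

/-- **(L6a)** the inertia group at `q ≠ 5` of a semistable model fixes a nonzero `5`-torsion point. -/
theorem exists_fixed_five_torsion (W : WeierstrassCurve ℤ) (hΔ : W.Δ ≠ 0)
    (hss : W.IsSemistableModel) {q : ℕ} (hq : q.Prime) (hq5 : q ≠ 5)
    {A : ValuationSubring Qb} (hA : A.LiesOverPrime q) :
    ∃ P : ((W.map (Int.castRingHom ℚ))⁄Qb).Point, P ≠ 0 ∧ 5 • P = 0 ∧
      ∀ τ ∈ A.inertiaSubgroupIn ℚ, τ • P = P := by
  classical
  by_cases hqΔ : (q : ℤ) ∣ W.Δ
  · obtain ⟨S, hcard, hS⟩ := Fermat.Agent.InertiaMult.exists_inertia_fixed_mult W hΔ hq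
      Nat.prime_five (by norm_num) (fun h => hq5 h.symm) hqΔ (hss q hq hqΔ) 1 hA
    have h1 : 1 < S.card := lt_of_lt_of_le (by norm_num) hcard
    obtain ⟨P, hPS, hP0⟩ := Finset.exists_mem_ne h1 0
    obtain ⟨h5, hfix⟩ := hS P hPS
    exact ⟨P, hP0, by simpa using h5, fun τ hτ => hfix τ hτ⟩
  · obtain ⟨P, hP0, h5⟩ := exists_five_torsion_ne_zero W hΔ
    refine ⟨P, hP0, h5, fun τ hτ => ?_⟩
    have hq5' : ¬ q ∣ 5 := fun h => hq5 ((Nat.prime_dvd_prime_iff_eq hq Nat.prime_five).mp h)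
    exact Fermat.Agent.InertiaMult.map_eq_self_of_good W hq (by decide) hq5' hqΔ hA hτ P h5

/-- In the good reduction case inertia fixes all `5`-torsion points. -/
theorem fixes_five_torsion_of_good (W : WeierstrassCurve ℤ) {q : ℕ} (hq : q.Prime) (hq5 : q ≠ 5)
    (hgood : ¬ (q : ℤ) ∣ W.Δ) {A : ValuationSubring Qb} (hA : A.LiesOverPrime q)
    {τ : GQ} (hτ : τ ∈ A.inertiaSubgroupIn ℚ)
    (P : ((W.map (Int.castRingHom ℚ))⁄Qb).Point) (h5 : 5 • P = 0) : τ • P = P := by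
  have hq5' : ¬ q ∣ 5 := fun h => hq5 ((Nat.prime_dvd_prime_iff_eq hq Nat.prime_five).mp h)
  exact Fermat.Agent.InertiaMult.map_eq_self_of_good W hq (by decide) hq5' hgood hA hτ P h5

end Fermat.Agent.S52K5L.InertFix
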