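/-
S52 programme K, brick B5 (mod-3 irreducibility), leaf L2 (helper1): the inertia group at `q`
moves `√(±q)`.

`A` a valuation subring of `ℚ̄` over the prime `q`, `s ∈ ℚ̄` with `s² = q` (or `s² = -q`).  Then
some `τ` in the inertia group `A.inertiaSubgroupIn ℚ` has `τ s = -s`.

Proof: otherwise `s` is fixed by inertia, so `s / q ∈ A` (`ES/P36/UnrFixed1.div_natCast_mem_of_fixed`:
`q` is a uniformiser of the fixed field of inertia), hence `(s/q)² = ±1/q ∈ A`, absurd.

Consequence (`not_fixed_of_odd_pow`): if inertia acts on a set of elements through a group of odd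
exponent `n`, then `τ ^ n` fixes those elements and still moves `s`.
-/
import Mathlib
import Fermat.Agent.ES.P36.UnrFixed1

set_option autoImplicit false

namespace Fermat.Agent.S52K5L.Ram3

local notation "Qbar" => AlgebraicClosure ℚ

open Fermat.Agent.ES.P36.UnrFixed1

variable {A : ValuationSubring Qbar} {q : ℕ}

/-- A square root of a rational number is mapped to `± itself` by any automorphism. -/
theorem apply_eq_or_eq_neg {s : Qbar} {c : ℚ} (hs : s ^ 2 = algebraMap ℚ Qbar c)
    (τ : Qbar ≃ₐ[ℚ] Qbar) : τ s = s ∨ τ s = -s := by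
  have h1 : (τ s) ^ 2 = s ^ 2 := by
    rw [← map_pow, hs, AlgEquiv.commutes]
  have h2 : (τ s - s) * (τ s + s) = 0 := by linear_combination h1
  rcases mul_eq_zero.mp h2 with h | h
  · left; linear_combination h
  · right; linear_combination h

/-- Common form: `s² = ε q` with `ε = ± 1`. -/
theorem exists_inertia_neg_aux (hq : q.Prime) (hA : A.LiesOverPrime q) {s : Qbar} {ε : ℚ}
    (hε : ε = 1 ∨ ε = -1) (hs : s ^ 2 = algebraMap ℚ Qbar (ε * q)) :
    ∃ τ ∈ A.inertiaSubgroupIn ℚ, τ s = -s := by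
  by_contra hcon0
  have hcon : ∀ τ ∈ A.inertiaSubgroupIn ℚ, τ s ≠ -s := fun τ hτ h => hcon0 ⟨τ, hτ, h⟩
  have hq0 : (q : Qbar) ≠ 0 := Nat.cast_ne_zero.mpr hq.ne_zero
  have hqA : (q : Qbar) ∈ A.nonunits := hA
  have hε2 : (algebraMap ℚ Qbar ε) ^ 2 = 1 := by
    rcases hε with h | h <;> simp [h]
  have hs' : s ^ 2 = algebraMap ℚ Qbar ε * (q : Qbar) := by
    rw [hs, map_mul, map_natCast]
  -- every inertia element fixes `s`
  have hfix : ∀ τ ∈ A.inertiaSubgroupIn ℚ, τ s = s := by
    intro τ hτ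
    rcases apply_eq_or_eq_neg hs τ with h | h
    · exact h
    · exact absurd h (hcon τ hτ)
  -- `s` is a nonunit
  have hεv : A.valuation (algebraMap ℚ Qbar ε) = 1 := by
    rcases hε with h | h
    · rw [h, map_one, map_one]
    · rw [h, map_neg, map_one, Valuation.map_neg, map_one]
  have hsA : s ∈ A.nonunits := by
    rw [ValuationSubring.mem_nonunits_iff] at hqA ⊢
    by_contra hge
    rw [not_lt] at hge
    have h1 : (1 : _) ≤ A.valuation s ^ 2 := one_le_pow₀ hge
    rw [← map_pow, hs', map_mul, hεv, one_mul] at h1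
    exact absurd hqA (not_lt.mpr h1)
  have hdiv := div_natCast_mem_of_fixed A hq hA s hfix hsA
  -- `(s/q)² = ε / q`
  have h2 : (s / (q : Qbar)) ^ 2 * algebraMap ℚ Qbar ε * (q : Qbar) = 1 := by
    calc (s / (q : Qbar)) ^ 2 * algebraMap ℚ Qbar ε * (q : Qbar)
        = s ^ 2 * algebraMap ℚ Qbar ε / (q : Qbar) := by field_simp
      _ = (algebraMap ℚ Qbar ε * (q : Qbar)) * algebraMap ℚ Qbar ε / (q : Qbar) := by rw [hs']
      _ = (algebraMap ℚ Qbar ε) ^ 2 := by field_simp
      _ = 1 := hε2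
  have hεA : algebraMap ℚ Qbar ε ∈ A := by
    rw [← ValuationSubring.valuation_le_one_iff, hεv]
  have h3 : (1 : Qbar) ∈ A.nonunits := by
    rw [← h2]
    rw [ValuationSubring.mem_nonunits_iff] at hqA ⊢
    rw [map_mul]
    have h4 : A.valuation ((s / (q : Qbar)) ^ 2 * algebraMap ℚ Qbar ε) ≤ 1 := by
      rw [ValuationSubring.valuation_le_one_iff]
      exact mul_mem (pow_mem hdiv 2) hεA
    exact mul_lt_one_of_nonneg_of_lt_one_right h4 zero_le hqA
  rw [ValuationSubring.mem_nonunits_iff, map_one] at h3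
  exact lt_irrefl _ h3

/-- **(L2)** the inertia group at `q` moves a square root of `q`. -/
theorem exists_inertia_neg (hq : q.Prime) (hA : A.LiesOverPrime q) {s : Qbar}
    (hs : s ^ 2 = (q : Qbar)) : ∃ τ ∈ A.inertiaSubgroupIn ℚ, τ s = -s := by
  refine exists_inertia_neg_aux hq hA (ε := 1) (Or.inl rfl) ?_
  rw [hs, one_mul, map_natCast]

/-- **(L2')** the inertia group at `q` moves a square root of `-q`. -/
theorem exists_inertia_neg' (hq : q.Prime) (hA : A.LiesOverPrime q) {s : Qbar}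
    (hs : s ^ 2 = -(q : Qbar)) : ∃ τ ∈ A.inertiaSubgroupIn ℚ, τ s = -s := by
  refine exists_inertia_neg_aux hq hA (ε := -1) (Or.inr rfl) ?_
  rw [hs, neg_one_mul, map_neg, map_natCast]

/-- An odd power of an automorphism negating `s` still negates `s`. -/
theorem pow_apply_of_neg {τ : Qbar ≃ₐ[ℚ] Qbar} {s : Qbar} (h : τ s = -s) {n : ℕ} (hn : Odd n) :
    (τ ^ n) s = -s := by
  have key : ∀ k : ℕ, (τ ^ k) s = (-1) ^ k * s := by
    intro k
    induction k with
    | zero => simp
    | succ k ih =>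
      rw [pow_succ', AlgEquiv.mul_apply, ih, map_mul, map_pow, map_neg, map_one, h]
      ring
  rw [key, hn.neg_one_pow]
  ring

end Fermat.Agent.S52K5L.Ram3
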