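/-
S52 programme K, brick B5 (mod-3 irreducibility), leaves L3 and L5 (helper1).

`B` a valuation subring of a field `L` over the prime `q`, `φ` a Frobenius element at `B`.

* `exists_int_sub_mem_nonunits` (L3): an element `x ∈ B` with `φ x = x` is congruent to a rational
  integer modulo the maximal ideal of `B` (its residue is a root of `X^q - X`, i.e. lies in `F_q`).
* `intCast_mem_nonunits_iff` : a rational integer lies in the maximal ideal of `B` iff `q` divides it.
* `not_isSquare_of_frob_neg` (L5): if `φ s = -s` for a square root `s` of an integer `d` prime to the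
  odd prime `q`, then `d` is not a square modulo `q` (Euler's criterion).
-/
import Mathlib
import Fermat.Prelude.Def_EllipticCurve_FrobeniusTrace
import Fermat.Prelude.Def_FLTPrelim_Ramification

set_option autoImplicit false

namespace Fermat.Agent.S52K5L.FrobFixed

variable {K L : Type*} [Field K] [Field L] [Algebra K L] {B : ValuationSubring L} {q : ℕ}

/-- The residue field of a valuation subring over `q` has characteristic `q`. -/
theorem charP_residueField_of_liesOver (hq : q.Prime) (hB : B.LiesOverPrime q) :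
    CharP (IsLocalRing.ResidueField B) q := by
  rw [CharP.charP_iff_prime_eq_zero hq]
  obtain ⟨hmem, hmax⟩ := ValuationSubring.mem_nonunits_iff_exists_mem_maximalIdeal.mp hB
  have h1 : (⟨(q : L), hmem⟩ : B) = ((q : ℕ) : B) := Subtype.ext (by simp)
  rw [h1, ← IsLocalRing.residue_eq_zero_iff, map_natCast] at hmax
  exact hmax

/-- A rational integer lies in the maximal ideal of `B ∣ q` iff `q` divides it. -/
theorem intCast_mem_nonunits_iff (hq : q.Prime) (hB : B.LiesOverPrime q) (n : ℤ) :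
    (n : L) ∈ B.nonunits ↔ (q : ℤ) ∣ n := by
  have := charP_residueField_of_liesOver hq hB
  have h1 : (n : L) = ((n : B) : L) := by simp
  rw [h1, ValuationSubring.coe_mem_nonunits_iff, ← IsLocalRing.residue_eq_zero_iff, map_intCast,
    CharP.intCast_eq_zero_iff (IsLocalRing.ResidueField B) q]

/-- The Frobenius congruence `φ x ≡ x ^ q` modulo the maximal ideal. -/
theorem frob_sub_pow_mem_nonunits {φ : L ≃ₐ[K] L} (h : B.IsFrobeniusAt φ q) {x : L}
    (hx : x ∈ B) : φ x - x ^ q ∈ B.nonunits := by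
  set g : B.decompositionSubgroup K := ⟨φ, h.mem_decompositionSubgroup⟩ with hg
  set xB : B := ⟨x, hx⟩ with hxB
  have h1 := h.smul_residue_eq (IsLocalRing.residue B xB)
  rw [← IsLocalRing.ResidueField.residue_smul, ← map_pow, ← sub_eq_zero, ← map_sub,
    IsLocalRing.residue_eq_zero_iff, ← ValuationSubring.coe_mem_nonunits_iff] at h1
  exact h1

/-- The residue of a `φ`-fixed element is fixed by the `q`-power map. -/
theorem residue_pow_eq_of_fixed {φ : L ≃ₐ[K] L} (h : B.IsFrobeniusAt φ q) {x : L}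
    (hx : x ∈ B) (hfix : φ x = x) :
    (IsLocalRing.residue B ⟨x, hx⟩) ^ q = IsLocalRing.residue B ⟨x, hx⟩ := by
  have h1 := frob_sub_pow_mem_nonunits h hx
  rw [hfix] at h1
  have h2 : x - x ^ q = (((⟨x, hx⟩ : B) - (⟨x, hx⟩ : B) ^ q : B) : L) := by simp
  rw [h2, ValuationSubring.coe_mem_nonunits_iff, ← IsLocalRing.residue_eq_zero_iff, map_sub,
    map_pow, sub_eq_zero] at h1
  exact h1.symm

/-- **(L3)** an integral element fixed by a Frobenius element at `B ∣ q` is congruent to a rational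
integer modulo the maximal ideal. -/
theorem exists_int_sub_mem_nonunits (hq : q.Prime) (hB : B.LiesOverPrime q) {φ : L ≃ₐ[K] L}
    (h : B.IsFrobeniusAt φ q) {x : L} (hx : x ∈ B) (hfix : φ x = x) :
    ∃ t : ℤ, x - (t : L) ∈ B.nonunits := by
  have : Fact q.Prime := ⟨hq⟩
  have := charP_residueField_of_liesOver hq hB
  have h1 := residue_pow_eq_of_fixed h hx hfix
  have h2 : IsLocalRing.residue B ⟨x, hx⟩ ∈ (⊥ : Subfield (IsLocalRing.ResidueField B)) :=
    (Subfield.mem_bot_iff_pow_eq_self (IsLocalRing.ResidueField B) q).mpr h1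
  obtain ⟨t, ht⟩ := (mem_bot_iff_intCast q (IsLocalRing.ResidueField B)).mp h2
  refine ⟨t, ?_⟩
  have h3 : x - (t : L) = (((⟨x, hx⟩ : B) - (t : B) : B) : L) := by simp
  rw [h3, ValuationSubring.coe_mem_nonunits_iff, ← IsLocalRing.residue_eq_zero_iff, map_sub,
    map_intCast, ht, sub_self]

/-- A square root of an element of `B` lies in `B`. -/
theorem mem_of_sq_mem {s : L} (hs : s ^ 2 ∈ B) : s ∈ B := by
  rw [← ValuationSubring.valuation_le_one_iff] at hs ⊢
  by_contra hgt
  rw [not_le] at hgt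
  have h1 : (1 : _) < B.valuation s ^ 2 := one_lt_pow₀ hgt two_ne_zero
  rw [map_pow] at hs
  exact absurd hs (not_le.mpr h1)

/-- **(L5)** If a Frobenius element at `B ∣ q` (`q` odd) negates a square root of the integer `d`,
`q ∤ d`, then `d` is not a square modulo `q`. -/
theorem not_isSquare_of_frob_neg (hq : q.Prime) (hq2 : q ≠ 2) (hB : B.LiesOverPrime q)
    {φ : L ≃ₐ[K] L} (h : B.IsFrobeniusAt φ q) {s : L} {d : ℤ} (hd : ¬ (q : ℤ) ∣ d)
    (hs : s ^ 2 = (d : L)) (hneg : φ s = -s) : ¬ IsSquare ((d : ℤ) : ZMod q) := by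
  have : Fact q.Prime := ⟨hq⟩
  have hchar := charP_residueField_of_liesOver hq hB
  intro hsq
  set k := IsLocalRing.ResidueField B with hk
  have hdB : (d : L) ∈ B := by
    have : (d : L) = ((d : B) : L) := by simp
    rw [this]; exact (d : B).2
  have hsB : s ∈ B := mem_of_sq_mem (hs ▸ hdB)
  set r : k := IsLocalRing.residue B ⟨s, hsB⟩ with hr
  -- `r ^ 2 = d`
  have hr2 : r ^ 2 = (d : k) := by
    have h1 : ((⟨s, hsB⟩ : B) ^ 2 : B) = (d : B) := Subtype.ext (by simpa using hs)
    rw [hr, ← map_pow, h1, map_intCast]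
  have hdk : (d : k) ≠ 0 := by
    rw [Ne, CharP.intCast_eq_zero_iff k q]
    exact hd
  have hr0 : r ≠ 0 := by
    rintro h0
    rw [h0] at hr2
    exact hdk (by rw [← hr2]; ring)
  -- Frobenius congruence: `-r = r ^ q`
  have hfrob : -r = r ^ q := by
    have h1 := frob_sub_pow_mem_nonunits h hsB
    rw [hneg] at h1
    have h2 : -s - s ^ q = ((-(⟨s, hsB⟩ : B) - (⟨s, hsB⟩ : B) ^ q : B) : L) := by simp
    rw [h2, ValuationSubring.coe_mem_nonunits_iff, ← IsLocalRing.residue_eq_zero_iff, map_sub,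
      map_neg, map_pow, sub_eq_zero] at h1
    exact h1
  -- `q = 2 m + 1`
  obtain ⟨m, hm⟩ : ∃ m, q = 2 * m + 1 := by
    rcases hq.eq_two_or_odd' with h2 | ⟨m, hm⟩
    · exact absurd h2 hq2
    · exact ⟨m, hm⟩
  have hpow : (d : k) ^ m = -1 := by
    have h1 : r * (d : k) ^ m = r * (-1) := by
      rw [← hr2, ← pow_mul, ← pow_succ', ← hm, ← hfrob]; ring
    exact mul_left_cancel₀ hr0 h1
  -- but `d` is a square mod `q`, so `d ^ m = 1`
  obtain ⟨a, ha⟩ := hsq
  set ι : ZMod q →+* k := ZMod.castHom (dvd_refl q) k with hι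
  have hda : (d : k) = ι a * ι a := by
    rw [← map_mul, ← ha, map_intCast]
  have ha0 : a ≠ 0 := by
    rintro rfl
    rw [map_zero, mul_zero] at hda
    exact hdk hda
  have ha1 : a ^ (q - 1) = 1 := ZMod.pow_card_sub_one_eq_one ha0
  have hpow' : (d : k) ^ m = 1 := by
    have h2 : q - 1 = 2 * m := by omega
    rw [hda, ← pow_two, ← pow_mul, ← h2, ← map_pow, ha1, map_one]
  have h11 : (1 : k) = -1 := hpow'.symm.trans hpow
  have h2k : ((2 : ℤ) : k) = 0 := by
    push_cast
    linear_combination h11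
  rw [CharP.intCast_eq_zero_iff k q] at h2k
  have h3 : q ∣ 2 := by exact_mod_cast h2k
  exact hq2 ((Nat.prime_dvd_prime_iff_eq hq Nat.prime_two).mp h3)

/-- **(L5)**, the case `d = 3`. -/
theorem not_isSquare_three_of_frob_neg (hq : q.Prime) (hq2 : q ≠ 2) (hq3 : q ≠ 3)
    (hB : B.LiesOverPrime q) {φ : L ≃ₐ[K] L} (h : B.IsFrobeniusAt φ q) {s : L}
    (hs : s ^ 2 = 3) (hneg : φ s = -s) : ¬ IsSquare (3 : ZMod q) := by
  have hd : ¬ (q : ℤ) ∣ (3 : ℤ) := by
    intro h3
    have h4 : q ∣ 3 := by exact_mod_cast h3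
    exact hq3 ((Nat.prime_dvd_prime_iff_eq hq Nat.prime_three).mp h4)
  have h1 := not_isSquare_of_frob_neg hq hq2 hB h (d := 3) hd (by rw [hs]; norm_num) hneg
  simpa using h1

end Fermat.Agent.S52K5L.FrobFixed
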