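/-
S52 programme K, brick B5, leaf L6b (helper1): a `2 × 2` matrix over `F₅` of determinant `1` fixing
a nonzero vector is unipotent, hence of order dividing `5`.

* `Matrix` form: `pow_five_eq_one`.
* integer form: `map_pow_five_eq_one`.
* group form: `iterate_five_eq`: an additive endomorphism `g` of a group containing two elements
  `Q, R` killed by `5`, independent mod `5`, with `g Q = a Q + c R`, `g R = b Q + d R`,
  `a d - b c ≡ 1 mod 5`, fixing some `x Q + y R` with `(x, y) ≢ 0 mod 5`, satisfies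
  `g^[5] Q = Q` and `g^[5] R = R`.
-/
import Mathlib

set_option autoImplicit false

open Matrix

namespace Fermat.Agent.S52K5L.Unipotent

/-- `M - 1` squares to zero. -/
theorem sub_one_sq_eq_zero {F : Type*} [Field F] (M : Matrix (Fin 2) (Fin 2) F) (hdet : M.det = 1)
    (v : Fin 2 → F) (hv : v ≠ 0) (hfix : M *ᵥ v = v) : (M - 1) * (M - 1) = 0 := by
  have h0 := congrFun hfix 0
  have h1 := congrFun hfix 1
  simp only [Matrix.mulVec, dotProduct, Fin.sum_univ_two] at h0 h1
  rw [Matrix.det_fin_two] at hdet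
  -- the trace is `2`
  have htr : M 0 0 + M 1 1 = 2 := by
    have hxy : v 0 ≠ 0 ∨ v 1 ≠ 0 := by
      by_contra hcon
      rw [not_or, not_not, not_not] at hcon
      apply hv
      funext i
      fin_cases i
      · exact hcon.1
      · exact hcon.2
    rcases hxy with hx | hy
    · have : (2 - (M 0 0 + M 1 1)) * v 0 = 0 := by
        linear_combination (M 1 1 - 1) * h0 - M 0 1 * h1 - v 0 * hdet
      rcases mul_eq_zero.mp this with h | h
      · linear_combination -h
      · exact absurd h hx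
    · have : (2 - (M 0 0 + M 1 1)) * v 1 = 0 := by
        linear_combination (M 0 0 - 1) * h1 - M 1 0 * h0 - v 1 * hdet
      rcases mul_eq_zero.mp this with h | h
      · linear_combination -h
      · exact absurd h hy
  ext i j
  fin_cases i <;> fin_cases j <;>
    simp only [Matrix.mul_apply, Fin.sum_univ_two, Matrix.sub_apply, Matrix.one_apply_eq,
      Matrix.zero_apply, Fin.zero_eta, Fin.mk_one, Matrix.one_apply_ne, ne_eq,
      not_false_eq_true, zero_ne_one, one_ne_zero, sub_zero]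
  · linear_combination (M 0 0) * htr - hdet
  · linear_combination (M 0 1) * htr
  · linear_combination (M 1 0) * htr
  · linear_combination (M 1 1) * htr - hdet

/-- **(L6b)**, matrix form. -/
theorem pow_five_eq_one (M : Matrix (Fin 2) (Fin 2) (ZMod 5)) (hdet : M.det = 1)
    (v : Fin 2 → ZMod 5) (hv : v ≠ 0) (hfix : M *ᵥ v = v) : M ^ 5 = 1 := by
  have : Fact (Nat.Prime 5) := ⟨Nat.prime_five⟩
  have hN := sub_one_sq_eq_zero M hdet v hv hfix
  have h5 : (M - 1) ^ 5 = 0 := by
    have : (M - 1) ^ 5 = (M - 1) * (M - 1) * (M - 1) ^ 3 := by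
      rw [← pow_two, ← pow_add]
    rw [this, hN, zero_mul]
  have hcomm : Commute M 1 := Commute.one_right M
  have h6 := sub_pow_char_of_commute (p := 5) hcomm
  rw [h5, one_pow] at h6
  exact (sub_eq_zero.mp h6.symm)

/-- **(L6b)**, integer form. -/
theorem map_pow_five_eq_one {a b c d x y : ℤ} (hdet : a * d - b * c ≡ 1 [ZMOD 5])
    (hxy : ¬ ((5 : ℤ) ∣ x ∧ (5 : ℤ) ∣ y)) (h0 : a * x + b * y ≡ x [ZMOD 5])
    (h1 : c * x + d * y ≡ y [ZMOD 5]) :
    ((!![a, b; c, d] : Matrix (Fin 2) (Fin 2) ℤ) ^ 5).map (Int.castRingHom (ZMod 5)) = 1 := by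
  rw [← RingHom.mapMatrix_apply, map_pow, RingHom.mapMatrix_apply]
  apply pow_five_eq_one _ _ ![(x : ZMod 5), (y : ZMod 5)]
  · intro h
    apply hxy
    have hx := congrFun h 0
    have hy := congrFun h 1
    simp only [Matrix.cons_val_zero, Matrix.cons_val_one, Pi.zero_apply] at hx hy
    exact ⟨(ZMod.intCast_zmod_eq_zero_iff_dvd x 5).mp hx,
      (ZMod.intCast_zmod_eq_zero_iff_dvd y 5).mp hy⟩
  · have e0 := (ZMod.intCast_eq_intCast_iff _ _ 5).mpr h0
    have e1 := (ZMod.intCast_eq_intCast_iff _ _ 5).mpr h1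
    push_cast at e0 e1
    funext i
    fin_cases i
    · simpa [Matrix.mulVec, dotProduct, Fin.sum_univ_two] using e0
    · simpa [Matrix.mulVec, dotProduct, Fin.sum_univ_two] using e1
  · have e := (ZMod.intCast_eq_intCast_iff _ _ 5).mpr hdet
    push_cast at e
    rw [Matrix.det_fin_two]
    simpa using e

section Group

variable {V : Type*} [AddCommGroup V]

/-- the point with coordinates `w` in the "basis" `(Q, R)`. -/
def pt (Q R : V) (w : Fin 2 → ℤ) : V := w 0 • Q + w 1 • R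

theorem pt_congr {Q R : V} (h5Q : (5 : ℤ) • Q = 0) (h5R : (5 : ℤ) • R = 0) {w w' : Fin 2 → ℤ}
    (h : ∀ i, w i ≡ w' i [ZMOD 5]) : pt Q R w = pt Q R w' := by
  obtain ⟨k0, hk0⟩ := (h 0).symm.dvd
  obtain ⟨k1, hk1⟩ := (h 1).symm.dvd
  have e0 : w 0 = w' 0 + 5 * k0 := by linarith
  have e1 : w 1 = w' 1 + 5 * k1 := by linarith
  unfold pt
  rw [e0, e1, add_smul, add_smul, mul_comm 5 k0, mul_comm 5 k1, mul_smul, mul_smul, h5Q, h5R,
    smul_zero, smul_zero, add_zero, add_zero]

theorem map_pt (g : V →+ V) {Q R : V} {a b c d : ℤ} (hQ : g Q = a • Q + c • R)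
    (hR : g R = b • Q + d • R) (w : Fin 2 → ℤ) :
    g (pt Q R w) = pt Q R ((!![a, b; c, d] : Matrix (Fin 2) (Fin 2) ℤ) *ᵥ w) := by
  unfold pt
  rw [map_add, map_zsmul, map_zsmul, hQ, hR]
  simp only [Matrix.mulVec, dotProduct, Fin.sum_univ_two, Matrix.of_apply, Matrix.cons_val_zero,
    Matrix.cons_val_one, Matrix.cons_val', Matrix.cons_val_fin_one]
  simp only [smul_add, smul_smul, add_smul]
  have e1 : w 0 * a = a * w 0 := mul_comm _ _
  have e2 : w 0 * c = c * w 0 := mul_comm _ _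
  have e3 : w 1 * b = b * w 1 := mul_comm _ _
  have e4 : w 1 * d = d * w 1 := mul_comm _ _
  rw [e1, e2, e3, e4]
  abel

theorem iterate_pt (g : V →+ V) {Q R : V} {a b c d : ℤ} (hQ : g Q = a • Q + c • R)
    (hR : g R = b • Q + d • R) (k : ℕ) (w : Fin 2 → ℤ) :
    g^[k] (pt Q R w) = pt Q R (((!![a, b; c, d] : Matrix (Fin 2) (Fin 2) ℤ) ^ k) *ᵥ w) := by
  induction k generalizing w with
  | zero => simp
  | succ k ih =>
    rw [Function.iterate_succ_apply, map_pt g hQ hR, ih, Matrix.mulVec_mulVec, ← pow_succ]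

/-- **(L6b)**, group form. -/
theorem iterate_five_eq (g : V →+ V) {Q R : V} (h5Q : (5 : ℤ) • Q = 0) (h5R : (5 : ℤ) • R = 0)
    (hind : ∀ m n : ℤ, m • Q + n • R = 0 → (5 : ℤ) ∣ m ∧ (5 : ℤ) ∣ n)
    {a b c d : ℤ} (hdet : a * d - b * c ≡ 1 [ZMOD 5]) (hQ : g Q = a • Q + c • R)
    (hR : g R = b • Q + d • R) {x y : ℤ} (hxy : ¬ ((5 : ℤ) ∣ x ∧ (5 : ℤ) ∣ y))
    (hfix : g (x • Q + y • R) = x • Q + y • R) :
    ∀ w : Fin 2 → ℤ, g^[5] (pt Q R w) = pt Q R w := by
  -- the fixed vector gives congruences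
  have hfix' := hfix
  rw [map_add, map_zsmul, map_zsmul, hQ, hR] at hfix'
  have h00 : (a * x + b * y - x) • Q + (c * x + d * y - y) • R = 0 := by
    have : (a * x + b * y - x) • Q + (c * x + d * y - y) • R
        = (x • (a • Q + c • R) + y • (b • Q + d • R)) - (x • Q + y • R) := by
      simp only [smul_add, smul_smul, add_smul, sub_smul, mul_comm x, mul_comm y]
      abel
    rw [this, hfix', sub_self]
  obtain ⟨hd0, hd1⟩ := hind _ _ h00
  have h0 : a * x + b * y ≡ x [ZMOD 5] := (Int.modEq_iff_dvd.mpr (by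
    obtain ⟨k, hk⟩ := hd0; exact ⟨-k, by linarith⟩))
  have h1 : c * x + d * y ≡ y [ZMOD 5] := (Int.modEq_iff_dvd.mpr (by
    obtain ⟨k, hk⟩ := hd1; exact ⟨-k, by linarith⟩))
  have hM := map_pow_five_eq_one hdet hxy h0 h1
  intro w
  rw [iterate_pt g hQ hR]
  apply pt_congr h5Q h5R
  intro i
  refine (ZMod.intCast_eq_intCast_iff _ _ 5).mp ?_
  -- entries of `M ^ 5` are those of the identity mod `5`
  have hent : ∀ i j, (((!![a, b; c, d] : Matrix (Fin 2) (Fin 2) ℤ) ^ 5) i j : ZMod 5)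
      = (1 : Matrix (Fin 2) (Fin 2) (ZMod 5)) i j := by
    intro i j
    have := congrFun (congrFun hM i) j
    simpa using this
  simp only [Matrix.mulVec, dotProduct, Fin.sum_univ_two]
  push_cast
  rw [hent, hent]
  fin_cases i <;> simp [Matrix.one_apply]

end Group

end Fermat.Agent.S52K5L.Unipotent
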